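import Fermat.Agent.NV.Kb.DivB
import Fermat.Agent.NV.Kb.Basic
import Fermat.Agent.S24.Cards

set_option autoImplicit false

/-!
# NV task T5-Exists (TWIN FILE: read the header of `NV/Kb/Defs.lean`)

Every `f ≠ 0` whose divisor is divisible by `m` has a character.

SKETCH.  `f = u / w` with `u w : A0 N` (`thetaIncl_exists_div`); `a = u * w ^ (m - 1)`, `thetaIncl a = f * (thetaIncl w) ^ m`, so `DivBy N m (thetaIncl a)`
(`Place.ord_mul`, `ord_pow`).  `dvd_order_TPt` + `NV.exists_root` give a root `h`; `h ^ m = PhiB a` is `Γ₀(N)`-invariant (`isEqv_PhiB`), `h ≠ 0`; `NV.exists_chr` gives `χ`.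
-/

open UpperHalfPlane ModularForm CongruenceSubgroup AlgebraicCurve IntermediateField
open scoped MatrixGroups Manifold

namespace Fermat.Agent.S24

open Fermat.Agent.NV

namespace Ch

theorem DivBy.mul {N m : ℕ} {f f' : FN N} (hf : f ≠ 0) (hf' : f' ≠ 0) (h : DivBy N m f)
    (h' : DivBy N m f') : DivBy N m (f * f') := by
  intro v
  rw [v.ord_mul hf hf']
  exact dvd_add (h v) (h' v)

theorem divBy_pow (N m : ℕ) (u : FN N) : DivBy N m (u ^ m) := by
  intro v
  rw [ord_pow]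
  exact Dvd.intro _ rfl

theorem DivBy.inv {N m : ℕ} {f : FN N} (h : DivBy N m f) : DivBy N m f⁻¹ := by
  intro v
  rw [v.ord_inv]
  exact (dvd_neg).mpr (h v)

theorem exists_hasChar {N : ℕ} [NeZero N] {m : ℕ} (hm : 0 < m) {f : FN N} (hf : f ≠ 0)
    (hd : DivBy N m f) : ∃ χ : Chr N, HasChar N m f χ := by
  obtain ⟨u, w, hw, hfuw⟩ := thetaIncl_exists_div N f
  have htw : thetaIncl N w ≠ 0 := fun h0 => hw (thetaIncl_injective N (h0.trans (map_zero _).symm))
  have e : thetaIncl N (u * w ^ (m - 1)) = f * thetaIncl N w ^ m := by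
    obtain ⟨k, rfl⟩ : ∃ k, m = k + 1 := ⟨m - 1, by omega⟩
    rw [map_mul, map_pow, hfuw, Nat.add_sub_cancel, pow_succ]
    field_simp
  set a := u * w ^ (m - 1) with ha_def
  have hta : thetaIncl N a ≠ 0 := by
    rw [e]
    exact mul_ne_zero hf (pow_ne_zero _ htw)
  have ha : a ≠ 0 := by
    intro h0
    rw [h0, map_zero] at hta
    exact hta rfl
  have hda : DivBy N m (thetaIncl N a) := by
    rw [e]
    exact hd.mul hf (pow_ne_zero _ htw) (divBy_pow N m _)
  have hy : MDiff (PhiB N a : ℍ → ℂ) := Btil_le_holSub N (PhiB N a).2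
  have hy0 : (PhiB N a : ℍ → ℂ) ≠ 0 := by
    intro h0
    apply ha
    apply PhiB_injective N
    rw [map_zero]
    exact Subtype.ext h0
  obtain ⟨h, hh, hroot⟩ := exists_root hm hy hy0 (fun τ => dvd_order_TPt N m a ha hda τ)
  have hh0 : h ≠ 0 := by
    rintro rfl
    apply hy0
    funext z
    rw [← hroot z]
    simp [hm.ne']
  obtain ⟨χ, hχ, -⟩ := exists_chr (N := N) hm hh hh0 (fun γ z => by
    rw [hroot, hroot, isEqv_PhiB N a γ z]
    simp)
  exact ⟨χ, a, thetaIncl N w, h, ha, htw, e, ⟨hh, hroot⟩, hχ⟩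

end Ch

end Fermat.Agent.S24
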