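import Fermat.Agent.NV.Defs
import Fermat.Agent.S24.Cards

set_option autoImplicit false

/-!
# NV, field dependent definitions (TWIN FILE)

All files `Fermat/Agent/NV/Kb/*.lean` are written for the constant field `Kb = ℚ̄` (names of `Fermat.Agent.S24`);
the files `Fermat/Agent/NV/Kc/*.lean` are generated from them MECHANICALLY (by helper27) for the constant field `Kc = ℂ`
(names of `Fermat.Agent.C24`) by the substitutions
`Kb ↦ Kc`, `iotaK ↦ iotaC`, `ModularCurve.modularFunctionFieldBar ↦ mffC`,
`namespace Fermat.Agent.S24 ↦ namespace Fermat.Agent.C24` + `open Fermat.Agent.S24`,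
`import Fermat.Agent.S24.Cards ↦ import Fermat.Agent.C24.Cards`, `Fermat.Agent.NV.Kb ↦ Fermat.Agent.NV.Kc`, `Cards. ↦ CardsC.`.
So in these files: use only properties of `Kb`, `iotaK` which also hold for `Kc`, `iotaC` (a field embedding of an
algebraically closed field of characteristic zero in `ℂ`) and only cite lemmas of `Fermat.Agent.S24`, never write the
prefix `Fermat.Agent.S24.` or `S24.` explicitly, and do not use `AlgebraicClosure ℚ` directly.
-/

open UpperHalfPlane ModularForm CongruenceSubgroup AlgebraicCurve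
open scoped MatrixGroups Manifold

namespace Fermat.Agent.S24

open Fermat.Agent.NV

namespace Ch

/-- `h` is a holomorphic `m`-th root of (the function on `ℍ` defined by) `a`. -/
def IsRoot (N : ℕ) [NeZero N] (m : ℕ) (a : A0 N) (h : ℍ → ℂ) : Prop :=
  MDiff h ∧ ∀ z, h z ^ m = (PhiB N a : ℍ → ℂ) z

/-- up to `m`-th powers, `f = h ^ m` with `h` holomorphic on `ℍ` and `h (γ z) = χ γ * h z`. -/
def HasChar (N : ℕ) [NeZero N] (m : ℕ) (f : FN N) (χ : Chr N) : Prop :=
  ∃ (a : A0 N) (w : FN N) (h : ℍ → ℂ), a ≠ 0 ∧ w ≠ 0 ∧ thetaIncl N a = f * w ^ m ∧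
    IsRoot N m a h ∧ IsEqv N χ h

/-- the divisor of `f` is divisible by `m`. -/
def DivBy (N : ℕ) (m : ℕ) (f : FN N) : Prop :=
  ∀ v : Place Kb (FN N), (m : ℤ) ∣ v.ord f

end Ch

end Fermat.Agent.S24
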